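import Mathlib

/-!
# Row LT, tower T8, leaf HSEQ (helper47), OFF-MAIN: the Hecke-multiplicative sequence

For arbitrary local data `A B : ℕ → ℂ` (`A p` = the `T_p`-eigenvalue, `B p` = the `S_p`-eigenvalue)
there is a sequence `a : ℕ → ℂ` with `a 0 = 0`, `a 1 = 1`, `a p = A p` and the Hecke relations

  `a (p * n) + B p * [p ∣ n] * a (n / p) = A p * a n`      (ALL primes `p`, ALL `n`),

namely `a n = ∏_{p ∣ n} s_p (v_p n)` with `s_p 0 = 1`, `s_p 1 = A p`,
`s_p (k + 2) = A p * s_p (k + 1) - B p * s_p k`.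

Mathlib only.  Needed to STATE a mean square bound for an adelic eigensystem `(π.a, π.b)`
(sub-leaf `MS556` of helper19), where only the local eigenvalues are given.
-/

set_option autoImplicit false

namespace Fermat.Agent.LT.T8.H47

/-- The local Hecke recursion `s 0 = 1`, `s 1 = A`, `s (k + 2) = A * s (k + 1) - B * s k`. -/
noncomputable def heckeLocal47 (A B : ℂ) : ℕ → ℂ
  | 0 => 1
  | 1 => A
  | (k + 2) => A * heckeLocal47 A B (k + 1) - B * heckeLocal47 A B k

@[simp] theorem heckeLocal47_zero (A B : ℂ) : heckeLocal47 A B 0 = 1 := by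
  rw [heckeLocal47]

@[simp] theorem heckeLocal47_one (A B : ℂ) : heckeLocal47 A B 1 = A := by
  rw [heckeLocal47]

theorem heckeLocal47_succ_succ (A B : ℂ) (k : ℕ) :
    heckeLocal47 A B (k + 2) = A * heckeLocal47 A B (k + 1) - B * heckeLocal47 A B k := by
  rw [heckeLocal47]

/-- The Hecke-multiplicative sequence of the local data `A`, `B`. -/
noncomputable def heckeSeq47 (A B : ℕ → ℂ) (n : ℕ) : ℂ :=
  if n = 0 then 0 else n.factorization.prod (fun p k => heckeLocal47 (A p) (B p) k)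

theorem heckeSeq47_zero (A B : ℕ → ℂ) : heckeSeq47 A B 0 = 0 := by
  simp [heckeSeq47]

theorem heckeSeq47_one (A B : ℕ → ℂ) : heckeSeq47 A B 1 = 1 := by
  simp [heckeSeq47]

theorem heckeSeq47_mul_of_coprime (A B : ℕ → ℂ) {m n : ℕ} (h : Nat.Coprime m n) :
    heckeSeq47 A B (m * n) = heckeSeq47 A B m * heckeSeq47 A B n := by
  rcases Nat.eq_zero_or_pos m with hm | hm
  · subst hm
    simp [heckeSeq47_zero]
  rcases Nat.eq_zero_or_pos n with hn | hn
  · subst hn
    simp [heckeSeq47_zero]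
  unfold heckeSeq47
  rw [if_neg (Nat.mul_ne_zero hm.ne' hn.ne'), if_neg hm.ne', if_neg hn.ne',
    Nat.factorization_mul_of_coprime h]
  apply Finsupp.prod_add_index_of_disjoint
  rw [Nat.support_factorization, Nat.support_factorization]
  exact h.disjoint_primeFactors

theorem heckeSeq47_prime_pow (A B : ℕ → ℂ) {p : ℕ} (hp : p.Prime) (k : ℕ) :
    heckeSeq47 A B (p ^ k) = heckeLocal47 (A p) (B p) k := by
  unfold heckeSeq47
  rw [if_neg (pow_ne_zero k hp.ne_zero), hp.factorization_pow]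
  rw [Finsupp.prod_single_index]
  exact heckeLocal47_zero _ _

theorem heckeSeq47_prime (A B : ℕ → ℂ) {p : ℕ} (hp : p.Prime) :
    heckeSeq47 A B p = A p := by
  have h := heckeSeq47_prime_pow A B hp 1
  rwa [pow_one, heckeLocal47_one] at h

/-- **HSEQ**: the Hecke relations at all primes. -/
theorem heckeSeq47_hecke (A B : ℕ → ℂ) {p : ℕ} (hp : p.Prime) (n : ℕ) :
    heckeSeq47 A B (p * n) + B p * (if p ∣ n then heckeSeq47 A B (n / p) else 0)
      = A p * heckeSeq47 A B n := by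
  rcases Nat.eq_zero_or_pos n with hn | hn
  · subst hn
    simp [heckeSeq47_zero]
  obtain ⟨k, m, hpm, hnkm⟩ := Nat.exists_eq_pow_mul_and_not_dvd hn.ne' p hp.ne_one
  have hcop : ∀ j : ℕ, Nat.Coprime (p ^ j) m := fun j =>
    Nat.Coprime.pow_left j ((Nat.Prime.coprime_iff_not_dvd hp).mpr hpm)
  have e1 : p * n = p ^ (k + 1) * m := by rw [hnkm, pow_succ]; ring
  rw [e1, heckeSeq47_mul_of_coprime A B (hcop (k + 1)), heckeSeq47_prime_pow A B hp]
  have e0 : heckeSeq47 A B n = heckeLocal47 (A p) (B p) k * heckeSeq47 A B m := by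
    rw [hnkm, heckeSeq47_mul_of_coprime A B (hcop k), heckeSeq47_prime_pow A B hp]
  rw [e0]
  rcases Nat.eq_zero_or_pos k with hk | hk
  · subst hk
    have hnd : ¬ p ∣ n := by
      rw [hnkm, pow_zero, one_mul]
      exact hpm
    rw [if_neg hnd]
    simp
  · obtain ⟨k', rfl⟩ : ∃ k', k = k' + 1 := ⟨k - 1, by omega⟩
    have hd : p ∣ n := ⟨p ^ k' * m, by rw [hnkm, pow_succ]; ring⟩
    have e2 : n / p = p ^ k' * m := by
      rw [hnkm, pow_succ]
      rw [show p ^ k' * p * m = p * (p ^ k' * m) by ring, Nat.mul_div_cancel_left _ hp.pos]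
    rw [if_pos hd, e2, heckeSeq47_mul_of_coprime A B (hcop k'), heckeSeq47_prime_pow A B hp,
      heckeLocal47_succ_succ]
    ring

/-- **HSEQ**, existence form. -/
theorem exists_heckeSeq47 (A B : ℕ → ℂ) :
    ∃ a : ℕ → ℂ, a 0 = 0 ∧ a 1 = 1 ∧ (∀ p : ℕ, p.Prime → a p = A p) ∧
      (∀ m n : ℕ, Nat.Coprime m n → a (m * n) = a m * a n) ∧
      ∀ p : ℕ, p.Prime → ∀ n : ℕ,
        a (p * n) + B p * (if p ∣ n then a (n / p) else 0) = A p * a n :=
  ⟨heckeSeq47 A B, heckeSeq47_zero A B, heckeSeq47_one A B,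
    fun _ hp => heckeSeq47_prime A B hp,
    fun _ _ h => heckeSeq47_mul_of_coprime A B h,
    fun _ hp n => heckeSeq47_hecke A B hp n⟩

end Fermat.Agent.LT.T8.H47
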