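import Mathlib

/-!
# Row LT, tower T8, leaf MS4a part 1 (helper47), OFF-MAIN: Fourier coefficients on a period

Mathlib only.  For a `T`-periodic continuous function `f : ℝ → ℂ` and `n : ℤ`,
`coef47 T f n = T⁻¹ ∫₀ᵀ e(-n x / T) f x dx`.

* `bessel47`: `∑_{n ∈ F} ‖coef47 T f n‖² ≤ C²` if `‖f‖ ≤ C`;
* `exists_coef_ne_zero47`: a non-constant continuous periodic function has a non-zero coefficient
  of non-zero frequency;
* `coef47_sumShift`: the coefficients of `x ↦ ∑_{j < p} f ((x + j T) / p)` are `p · coef f (p n)`;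
* `coef47_dilate_mul` / `coef47_dilate_of_not_dvd`: the coefficients of `x ↦ f (p x)` are
  `coef f (n / p)` if `p ∣ n` and `0` otherwise;
* `continuousOn_coef47`: continuity in a parameter.
-/

set_option autoImplicit false

open MeasureTheory Real

noncomputable section

namespace Fermat.Agent.LT.T8.H47

/-- The exponential `e_n (x) = exp (2 π i n x / T)`. -/
def ek47 (T : ℝ) (n : ℤ) (x : ℝ) : ℂ := Complex.exp (2 * π * Complex.I * n * x / T)

/-- The `n`-th Fourier coefficient on the period `[0, T]`. -/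
def coef47 (T : ℝ) (f : ℝ → ℂ) (n : ℤ) : ℂ :=
  (1 / (T : ℂ)) * ∫ x in (0 : ℝ)..T, ek47 T (-n) x * f x

theorem continuous_ek47 (T : ℝ) (n : ℤ) : Continuous (ek47 T n) := by
  unfold ek47
  fun_prop

theorem norm_ek47 (T : ℝ) (n : ℤ) (x : ℝ) : ‖ek47 T n x‖ = 1 := by
  unfold ek47
  have : (2 * (π : ℂ) * Complex.I * n * x / T) = ((2 * π * n * x / T : ℝ) : ℂ) * Complex.I := by
    push_cast
    ring
  rw [this, Complex.norm_exp_ofReal_mul_I]

theorem ek47_ne_zero (T : ℝ) (n : ℤ) (x : ℝ) : ek47 T n x ≠ 0 := Complex.exp_ne_zero _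

theorem ek47_zero (T : ℝ) (x : ℝ) : ek47 T 0 x = 1 := by
  simp [ek47]

theorem ek47_add (T : ℝ) (m n : ℤ) (x : ℝ) : ek47 T (m + n) x = ek47 T m x * ek47 T n x := by
  unfold ek47
  rw [← Complex.exp_add]
  congr 1
  push_cast
  ring

theorem ek47_neg (T : ℝ) (n : ℤ) (x : ℝ) : ek47 T (-n) x = (ek47 T n x)⁻¹ := by
  unfold ek47
  rw [← Complex.exp_neg]
  congr 1
  push_cast
  ring

/-- `e_n (x + k T) = e_n x` for integers `k`. -/
theorem ek47_add_int_mul {T : ℝ} (hT : T ≠ 0) (n k : ℤ) (x : ℝ) :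
    ek47 T n (x + k * T) = ek47 T n x := by
  unfold ek47
  have hTc : (T : ℂ) ≠ 0 := Complex.ofReal_ne_zero.mpr hT
  have : (2 * (π : ℂ) * Complex.I * n * ((x + k * T : ℝ) : ℂ) / T)
      = 2 * π * Complex.I * n * x / T + ((n * k : ℤ) : ℂ) * (2 * π * Complex.I) := by
    push_cast
    field_simp
  rw [this, Complex.exp_add, Complex.exp_int_mul_two_pi_mul_I, mul_one]

theorem ek47_periodic {T : ℝ} (hT : T ≠ 0) (n : ℤ) : Function.Periodic (ek47 T n) T := by
  intro x
  have := ek47_add_int_mul hT n 1 x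
  simpa using this

theorem coef47_eq_fourierCoeffOn {T : ℝ} (hT : 0 < T) (f : ℝ → ℂ) (n : ℤ) :
    fourierCoeffOn (a := 0) (b := T) hT f n = coef47 T f n := by
  rw [fourierCoeffOn_eq_integral]
  simp only [fourier_coe_apply, smul_eq_mul, sub_zero]
  unfold coef47 ek47
  push_cast
  rw [Complex.real_smul]
  push_cast
  rfl

/-- **Bessel's inequality** for a bounded continuous function. -/
theorem bessel47 {T : ℝ} (hT : 0 < T) {f : ℝ → ℂ} (hf : Continuous f) {C : ℝ}
    (hC : ∀ x, ‖f x‖ ≤ C) (F : Finset ℤ) :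
    ∑ n ∈ F, ‖coef47 T f n‖ ^ 2 ≤ C ^ 2 := by
  have hC0 : 0 ≤ C := (norm_nonneg _).trans (hC 0)
  have hmem : MemLp f 2 (volume.restrict (Set.Ioc 0 T)) :=
    MemLp.of_bound hf.aestronglyMeasurable C (Filter.Eventually.of_forall hC)
  have hsum := hasSum_sq_fourierCoeffOn (a := 0) (b := T) hT hmem
  simp only [sub_zero, smul_eq_mul] at hsum
  have hle := sum_le_hasSum F (fun i _ => by positivity) hsum
  have e : ∀ n ∈ F, ‖coef47 T f n‖ ^ 2 = ‖fourierCoeffOn (a := 0) (b := T) hT f n‖ ^ 2 := by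
    intro n _
    rw [coef47_eq_fourierCoeffOn hT]
  rw [Finset.sum_congr rfl e]
  refine hle.trans ?_
  have hint : ∫ x in (0 : ℝ)..T, ‖f x‖ ^ 2 ≤ ∫ _x in (0 : ℝ)..T, C ^ 2 := by
    apply intervalIntegral.integral_mono_on hT.le
    · exact (Continuous.intervalIntegrable (by fun_prop) _ _)
    · exact intervalIntegrable_const
    · intro x _
      exact pow_le_pow_left₀ (norm_nonneg _) (hC x) 2
  rw [intervalIntegral.integral_const, sub_zero, smul_eq_mul] at hint
  calc T⁻¹ * ∫ x in (0 : ℝ)..T, ‖f x‖ ^ 2 ≤ T⁻¹ * (T * C ^ 2) :=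
        mul_le_mul_of_nonneg_left hint (inv_nonneg.mpr hT.le)
    _ = C ^ 2 := by field_simp

/-! ## Linearity -/

theorem intervalIntegrable_ek47_mul {T : ℝ} {f : ℝ → ℂ} (hf : Continuous f) (n : ℤ) (a b : ℝ) :
    IntervalIntegrable (fun x => ek47 T n x * f x) volume a b :=
  ((continuous_ek47 T n).mul hf).intervalIntegrable a b

theorem coef47_add {T : ℝ} {f g : ℝ → ℂ} (hf : Continuous f) (hg : Continuous g) (n : ℤ) :
    coef47 T (fun x => f x + g x) n = coef47 T f n + coef47 T g n := by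
  unfold coef47
  rw [← mul_add, ← intervalIntegral.integral_add (intervalIntegrable_ek47_mul hf _ _ _)
    (intervalIntegrable_ek47_mul hg _ _ _)]
  congr 1
  refine intervalIntegral.integral_congr fun x _ => ?_
  simp only
  ring

theorem coef47_const_mul (T : ℝ) (f : ℝ → ℂ) (c : ℂ) (n : ℤ) :
    coef47 T (fun x => c * f x) n = c * coef47 T f n := by
  unfold coef47
  have e : ∫ x in (0 : ℝ)..T, ek47 T (-n) x * (c * f x)
      = c * ∫ x in (0 : ℝ)..T, ek47 T (-n) x * f x := by
    rw [← intervalIntegral.integral_const_mul c (fun x => ek47 T (-n) x * f x)]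
    refine intervalIntegral.integral_congr fun x _ => ?_
    ring
  rw [e]
  ring

theorem coef47_zero_fun (T : ℝ) (n : ℤ) : coef47 T (fun _ => (0 : ℂ)) n = 0 := by
  unfold coef47
  simp

theorem coef47_sum {ι : Type*} (s : Finset ι) {T : ℝ} {f : ι → ℝ → ℂ}
    (hf : ∀ i ∈ s, Continuous (f i)) (n : ℤ) :
    coef47 T (fun x => ∑ i ∈ s, f i x) n = ∑ i ∈ s, coef47 T (f i) n := by
  classical
  induction s using Finset.induction_on with
  | empty => simpa using coef47_zero_fun T n
  | insert i s hi ih =>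
    have h1 : Continuous (f i) := hf i (Finset.mem_insert_self i s)
    have h2 : ∀ j ∈ s, Continuous (f j) := fun j hj => hf j (Finset.mem_insert_of_mem hj)
    have h3 : Continuous (fun x => ∑ j ∈ s, f j x) := continuous_finsetSum s h2
    have e : (fun x => ∑ j ∈ insert i s, f j x) = fun x => f i x + ∑ j ∈ s, f j x := by
      funext x
      rw [Finset.sum_insert hi]
    rw [e, coef47_add h1 h3, Finset.sum_insert hi, ih h2]

/-! ## Coefficients of a constant -/

theorem integral_ek47_eq_zero {T : ℝ} (hT : 0 < T) {n : ℤ} (hn : n ≠ 0) :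
    ∫ x in (0 : ℝ)..T, ek47 T n x = 0 := by
  have hTc : (T : ℂ) ≠ 0 := Complex.ofReal_ne_zero.mpr hT.ne'
  have hnc : (n : ℂ) ≠ 0 := Int.cast_ne_zero.mpr hn
  set c : ℂ := 2 * π * Complex.I * n / T with hc
  have hc0 : c ≠ 0 := by
    rw [hc]
    refine div_ne_zero (mul_ne_zero (mul_ne_zero (mul_ne_zero two_ne_zero ?_) Complex.I_ne_zero)
      hnc) hTc
    exact Complex.ofReal_ne_zero.mpr Real.pi_ne_zero
  have e : ∀ x : ℝ, ek47 T n x = Complex.exp (c * x) := by
    intro x
    unfold ek47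
    congr 1
    rw [hc]
    ring
  simp_rw [e]
  rw [integral_exp_mul_complex hc0]
  have h1 : Complex.exp (c * (T : ℝ)) = 1 := by
    have : c * (T : ℝ) = (n : ℂ) * (2 * π * Complex.I) := by
      rw [hc]
      field_simp
    rw [this, Complex.exp_int_mul_two_pi_mul_I]
  rw [h1]
  simp

theorem coef47_const {T : ℝ} (hT : 0 < T) (c : ℂ) (n : ℤ) :
    coef47 T (fun _ => c) n = if n = 0 then c else 0 := by
  have hTc : (T : ℂ) ≠ 0 := Complex.ofReal_ne_zero.mpr hT.ne'
  unfold coef47
  rw [intervalIntegral.integral_mul_const]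
  split_ifs with h
  · subst h
    simp only [neg_zero, ek47_zero]
    rw [intervalIntegral.integral_const, sub_zero]
    simp only [Complex.real_smul, mul_one]
    field_simp
  · rw [integral_ek47_eq_zero hT (neg_ne_zero.mpr h)]
    simp

/-! ## Uniqueness -/

/-- A continuous `T`-periodic function all of whose Fourier coefficients of non-zero frequency
vanish is constant. -/
theorem eq_const_of_coef47_eq_zero {T : ℝ} (hT : 0 < T) {f : ℝ → ℂ} (hf : Continuous f)
    (hper : Function.Periodic f T) (h0 : ∀ n : ℤ, n ≠ 0 → coef47 T f n = 0) (x : ℝ) :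
    f x = coef47 T f 0 := by
  set c₀ : ℂ := coef47 T f 0 with hc₀
  set g : ℝ → ℂ := fun x => f x + (-c₀) with hg
  have hgc : Continuous g := hf.add continuous_const
  have hcoef : ∀ n : ℤ, coef47 T g n = 0 := by
    intro n
    rw [hg, coef47_add hf continuous_const, coef47_const hT]
    split_ifs with h
    · subst h
      rw [← hc₀]
      ring
    · rw [h0 n h, add_zero]
  have hmem : MemLp g 2 (volume.restrict (Set.Ioc 0 T)) := by
    obtain ⟨C, hC⟩ := (isCompact_Icc (a := (0 : ℝ)) (b := T)).exists_bound_of_continuousOn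
      hgc.continuousOn
    refine MemLp.of_bound hgc.aestronglyMeasurable C ?_
    rw [ae_restrict_iff' measurableSet_Ioc]
    exact Filter.Eventually.of_forall fun x hx => hC x (Set.Ioc_subset_Icc_self hx)
  have hsum := hasSum_sq_fourierCoeffOn (a := 0) (b := T) hT hmem
  simp only [sub_zero, smul_eq_mul] at hsum
  have hz : (fun i : ℤ => ‖fourierCoeffOn (a := 0) (b := T) hT g i‖ ^ 2) = fun _ => 0 := by
    funext i
    rw [coef47_eq_fourierCoeffOn hT, hcoef i]
    simp
  rw [hz] at hsum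
  have hval : T⁻¹ * ∫ x in (0 : ℝ)..T, ‖g x‖ ^ 2 = 0 := hsum.unique hasSum_zero
  have hint : ∫ x in (0 : ℝ)..T, ‖g x‖ ^ 2 = 0 := by
    rcases mul_eq_zero.mp hval with h | h
    · exact absurd (inv_eq_zero.mp h) hT.ne'
    · exact h
  have hcont2 : Continuous fun x => ‖g x‖ ^ 2 := by fun_prop
  have hae := (intervalIntegral.integral_eq_zero_iff_of_le_of_nonneg_ae hT.le
    (Filter.Eventually.of_forall fun x => by positivity)
    (hcont2.intervalIntegrable 0 T)).mp hint
  have heq : Set.EqOn (fun x => ‖g x‖ ^ 2) 0 (Set.Ioc 0 T) :=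
    Measure.eqOn_Ioc_of_ae_eq volume hae hcont2.continuousOn continuousOn_const
  obtain ⟨y, hy, hxy⟩ := hper.exists_mem_Ioc hT (a := 0) x
  rw [zero_add] at hy
  have h1 := heq hy
  simp only [Pi.zero_apply] at h1
  have h2 : g y = 0 := by
    have := pow_eq_zero_iff (two_ne_zero) |>.mp h1
    exact norm_eq_zero.mp this
  rw [hxy]
  rw [hg] at h2
  simp only at h2
  exact eq_neg_of_add_eq_zero_left h2 |>.trans (neg_neg _)

/-- A non-constant continuous periodic function has a non-zero Fourier coefficient of non-zero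
frequency. -/
theorem exists_coef47_ne_zero {T : ℝ} (hT : 0 < T) {f : ℝ → ℂ} (hf : Continuous f)
    (hper : Function.Periodic f T) {x x' : ℝ} (hne : f x ≠ f x') :
    ∃ n : ℤ, n ≠ 0 ∧ coef47 T f n ≠ 0 := by
  by_contra h
  push Not at h
  exact hne ((eq_const_of_coef47_eq_zero hT hf hper h x).trans
    (eq_const_of_coef47_eq_zero hT hf hper h x').symm)

/-! ## Dilation `x ↦ f (p x)` -/

theorem ek47_mul_arg (T : ℝ) (p : ℕ) (n : ℤ) (x : ℝ) :
    ek47 T (p * n) x = ek47 T n (p * x) := by
  unfold ek47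
  congr 1
  push_cast
  ring

/-- The coefficients of index `p n` of `x ↦ f (p x)`. -/
theorem coef47_dilate_mul {T : ℝ} {f : ℝ → ℂ} (hf : Continuous f)
    (hper : Function.Periodic f T) {p : ℕ} (hp : 0 < p) (n : ℤ) :
    coef47 T (fun x => f (p * x)) (p * n) = coef47 T f n := by
  unfold coef47
  congr 1
  set G : ℝ → ℂ := fun w => ek47 T (-n) w * f w with hG
  have hGc : Continuous G := (continuous_ek47 T _).mul hf
  have hGper : Function.Periodic G T := by
    intro w
    rw [hG]
    simp only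
    by_cases hT : T = 0
    · subst hT
      simp
    · rw [ek47_periodic hT, hper w]
  have e1 : ∀ x : ℝ, ek47 T (-(p * n)) x * f (p * x) = G (p * x) := by
    intro x
    rw [hG]
    simp only
    rw [show -((p : ℤ) * n) = (p : ℤ) * (-n) by ring, ek47_mul_arg]
  have hp0 : (p : ℝ) ≠ 0 := Nat.cast_ne_zero.mpr hp.ne'
  calc ∫ x in (0 : ℝ)..T, ek47 T (-(p * n)) x * f (p * x)
      = ∫ x in (0 : ℝ)..T, G (p * x) := intervalIntegral.integral_congr fun x _ => e1 x
    _ = (p : ℝ)⁻¹ • ∫ x in (p : ℝ) * 0..(p : ℝ) * T, G x :=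
        intervalIntegral.integral_comp_mul_left G hp0
    _ = (p : ℝ)⁻¹ • ((p : ℤ) • ∫ x in (0 : ℝ)..0 + T, G x) := by
        have h := hGper.intervalIntegral_add_zsmul_eq (p : ℤ) 0
          (fun t₁ t₂ => hGc.intervalIntegrable t₁ t₂)
        rw [← h]
        congr 2
        · simp
        · simp
    _ = ∫ x in (0 : ℝ)..T, G x := by
        have hpc : (p : ℂ) ≠ 0 := Nat.cast_ne_zero.mpr hp.ne'
        rw [zero_add, zsmul_eq_mul, Complex.real_smul]
        push_cast
        rw [← mul_assoc, inv_mul_cancel₀ hpc, one_mul]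

/-- The coefficients of `x ↦ f (p x)` of index prime to `p` vanish. -/
theorem coef47_dilate_of_not_dvd {T : ℝ} (hT : 0 < T) {f : ℝ → ℂ}
    (hper : Function.Periodic f T) {p : ℕ} (hp : 0 < p) {n : ℤ} (hn : ¬ (p : ℤ) ∣ n) :
    coef47 T (fun x => f (p * x)) n = 0 := by
  unfold coef47
  have hTc : (T : ℂ) ≠ 0 := Complex.ofReal_ne_zero.mpr hT.ne'
  have hp0 : (p : ℝ) ≠ 0 := Nat.cast_ne_zero.mpr hp.ne'
  have hpc : (p : ℂ) ≠ 0 := Nat.cast_ne_zero.mpr hp.ne'
  set H : ℝ → ℂ := fun x => ek47 T (-n) x * f (p * x) with hH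
  set ζ : ℂ := Complex.exp (2 * π * Complex.I * (-n : ℤ) / p) with hζ
  have hHper : Function.Periodic H T := by
    intro x
    rw [hH]
    simp only
    rw [ek47_periodic hT.ne', mul_add]
    have := hper.nat_mul p (p * x)
    rw [this]
  have hshift : ∀ x : ℝ, H (x + T / p) = ζ * H x := by
    intro x
    rw [hH, hζ]
    simp only
    have e1 : (p : ℝ) * (x + T / p) = p * x + T := by field_simp
    rw [e1, hper]
    have e2 : ek47 T (-n) (x + T / p)
        = Complex.exp (2 * π * Complex.I * (-n : ℤ) / p) * ek47 T (-n) x := by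
      unfold ek47
      rw [← Complex.exp_add]
      congr 1
      push_cast
      field_simp
      ring
    rw [e2]
    ring
  have hI : ∫ x in (0 : ℝ)..T, H x = ζ * ∫ x in (0 : ℝ)..T, H x := by
    have h1 : ∫ x in (0 : ℝ)..T, H (x + T / p) = ∫ x in (0 : ℝ)..T, H x := by
      rw [intervalIntegral.integral_comp_add_right]
      have := hHper.intervalIntegral_add_eq (0 + T / p) 0
      simp only [zero_add] at this
      rw [zero_add, add_comm T, this]
    calc ∫ x in (0 : ℝ)..T, H x = ∫ x in (0 : ℝ)..T, H (x + T / p) := h1.symm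
      _ = ∫ x in (0 : ℝ)..T, ζ * H x := intervalIntegral.integral_congr fun x _ => hshift x
      _ = ζ * ∫ x in (0 : ℝ)..T, H x := intervalIntegral.integral_const_mul ζ H
  have hζ1 : ζ ≠ 1 := by
    intro h1
    rw [hζ, Complex.exp_eq_one_iff] at h1
    obtain ⟨m, hm⟩ := h1
    apply hn
    have h2π : (2 * (π : ℂ) * Complex.I) ≠ 0 := Complex.two_pi_I_ne_zero
    have h3 : ((-n : ℤ) : ℂ) = (m : ℂ) * p := by
      have h4 : 2 * (π : ℂ) * Complex.I * ((-n : ℤ) : ℂ) = 2 * π * Complex.I * ((m : ℂ) * p) := by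
        field_simp at hm
        rw [hm]
        ring
      exact mul_left_cancel₀ h2π h4
    have h5 : (-n : ℤ) = m * p := by exact_mod_cast h3
    exact ⟨-m, by linarith⟩
  have hzero : ∫ x in (0 : ℝ)..T, H x = 0 := by
    have h6 : (1 - ζ) * ∫ x in (0 : ℝ)..T, H x = 0 := by
      rw [sub_mul, one_mul, ← hI, sub_self]
    rcases mul_eq_zero.mp h6 with h | h
    · exact absurd (sub_eq_zero.mp h).symm hζ1
    · exact h
  rw [hzero, mul_zero]

/-! ## The trace `x ↦ ∑_{j < p} f ((x + j T) / p)` -/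

/-- The coefficients of `x ↦ ∑_{j < p} f ((x + j T) / p)`. -/
theorem coef47_sumShift {T : ℝ} (hT : 0 < T) {f : ℝ → ℂ} (hf : Continuous f)
    {p : ℕ} (hp : 0 < p) (n : ℤ) :
    coef47 T (fun x => ∑ j ∈ Finset.range p, f ((x + j * T) / p)) n
      = p * coef47 T f (p * n) := by
  have hp0 : (p : ℝ) ≠ 0 := Nat.cast_ne_zero.mpr hp.ne'
  have hcj : ∀ j : ℕ, Continuous fun x : ℝ => f ((x + j * T) / p) := by
    intro j
    exact hf.comp (by fun_prop)
  rw [coef47_sum _ (fun j _ => hcj j)]
  set G : ℝ → ℂ := fun w => ek47 T (-(p * n)) w * f w with hG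
  have hGc : Continuous G := (continuous_ek47 T _).mul hf
  have key : ∀ j : ℕ, coef47 T (fun x : ℝ => f ((x + j * T) / p)) n
      = (1 / (T : ℂ)) * ((p : ℂ) * ∫ x in (j * T / p : ℝ)..((j + 1 : ℕ) * T / p : ℝ), G x) := by
    intro j
    unfold coef47
    congr 1
    have e1 : ∀ x : ℝ, ek47 T (-n) x * f ((x + j * T) / p) = G (x / p + j * T / p) := by
      intro x
      rw [hG]
      simp only
      have e2 : x / p + j * T / p = (x + j * T) / p := by ring
      rw [e2, show -((p : ℤ) * n) = (p : ℤ) * (-n) by ring, ek47_mul_arg]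
      have e3 : (p : ℝ) * ((x + j * T) / p) = x + (j : ℤ) * T := by
        push_cast
        field_simp
      rw [e3, ek47_add_int_mul hT.ne']
    rw [intervalIntegral.integral_congr fun x _ => e1 x,
      intervalIntegral.integral_comp_div_add G hp0, Complex.real_smul]
    congr 2
    · simp
    · push_cast
      ring
  rw [Finset.sum_congr rfl fun j _ => key j, ← Finset.mul_sum, ← Finset.mul_sum]
  have hadj := intervalIntegral.sum_integral_adjacent_intervals (f := G) (μ := volume)
    (a := fun k : ℕ => (k : ℝ) * T / p) (n := p)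
    (fun k _ => hGc.intervalIntegrable _ _)
  rw [hadj]
  unfold coef47
  have e0 : ((0 : ℕ) : ℝ) * T / p = 0 := by simp
  have e1 : (p : ℝ) * T / p = T := by field_simp
  rw [e0, e1]
  ring

/-! ## Continuity in a parameter -/

/-- The Fourier coefficients of a bounded family of continuous functions which depends
continuously on a parameter (separately in the two variables) are continuous in the parameter. -/
theorem continuousOn_coef47 {T : ℝ} (hT : 0 ≤ T) {F : ℝ → ℝ → ℂ} {s : Set ℝ} {C : ℝ}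
    (hx : ∀ y ∈ s, Continuous (F y)) (hy : ∀ x, ContinuousOn (fun y => F y x) s)
    (hC : ∀ y ∈ s, ∀ x, ‖F y x‖ ≤ C) (n : ℤ) :
    ContinuousOn (fun y => coef47 T (F y) n) s := by
  unfold coef47
  refine ContinuousOn.mul continuousOn_const ?_
  simp_rw [intervalIntegral.integral_of_le hT]
  refine continuousOn_of_dominated (bound := fun _ => C) ?_ ?_ ?_ ?_
  · intro y hy'
    exact ((continuous_ek47 T _).mul (hx y hy')).aestronglyMeasurable
  · intro y hy'
    refine Filter.Eventually.of_forall fun x => ?_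
    rw [norm_mul, norm_ek47, one_mul]
    exact hC y hy' x
  · exact integrableOn_const (by simp)
  · refine Filter.Eventually.of_forall fun x => ?_
    exact ContinuousOn.mul continuousOn_const (hy x)

end Fermat.Agent.LT.T8.H47
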