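import Mathlib
import Fermat.Agent.LT.H51.MS1
import Fermat.Agent.LT.T8.H47.PerFourier

/-!
# Row LT, tower T8, leaf MS4a (helper47), OFF-MAIN: the classical horocycle calculus

The CLASSICAL half of the mean square bound `MS556` of helper19 (tower T8, `PAR556`).
Mathlib + `LT/H51/MS1.lean` (helper51) only; no adeles.

`HoroData47 M a b U C` is what the adelic side has to provide for a bounded continuous function
`φ` on `GL₂(ℚ) \ GL₂(𝔸_ℚ)`, Hecke eigen at the primes `p ∤ M`: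

* `U κ x y = φ (n(x)_∞ a(y)_∞ d(κ) g₀)` (`y > 0`), `κ ∈ (ℤ/M)ˣ` the class of the torus twist
  `d(κ) = diag(t, 1)`, `t ∈ ∏ ℤ_q^×`;
* continuity (separately in `x` and `y`), the bound `‖U‖ ≤ C`, the period `M` in `x`;
* the Hecke identity on the horocycles

    `∑_{j < p} U (κ p) ((x + j M) / p) (y / p) + b p · U (κ p⁻¹) (p x) (p y) = √p · a p · U κ x y`.

`HoroData47.exists_coeffData`: if some `U κ · y` is not constant, then the Fourier coefficients of
one of the `χ`-isotypic sums `∑_κ χ(κ)⁻¹ U κ` (positive or negative frequencies) form a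
`H51.CoeffData` with a non-vanishing coefficient function; `HoroData47.msBound` is the resulting
mean square bound `∑_{n ≤ x} ‖depleted M a n‖² ≤ C' x` (MS1 of helper51).
-/

set_option autoImplicit false

open MeasureTheory Real

noncomputable section

namespace Fermat.Agent.LT.T8.H47

open Fermat.Agent.LT.H51

/-- The unit of `ZMod M` of a natural number prime to `M` (junk value `1` otherwise). -/
def unitOf47 (M n : ℕ) : (ZMod M)ˣ :=
  if h : Nat.Coprime n M then ZMod.unitOfCoprime n h else 1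

theorem unitOf47_coe {M n : ℕ} (h : Nat.Coprime n M) :
    ((unitOf47 M n : (ZMod M)ˣ) : ZMod M) = (n : ZMod M) := by
  unfold unitOf47
  rw [dif_pos h, ZMod.coe_unitOfCoprime]

/-- The classical data on the horocycles. -/
structure HoroData47 (M : ℕ) (a b : ℕ → ℂ) (U : (ZMod M)ˣ → ℝ → ℝ → ℂ) (C : ℝ) : Prop where
  a_one : a 1 = 1
  hecke_a : ∀ p : ℕ, p.Prime → ¬ p ∣ M → ∀ n : ℕ,
    a (p * n) + b p * (if p ∣ n then a (n / p) else 0) = a p * a n
  cont_x : ∀ (κ : (ZMod M)ˣ) (y : ℝ), 0 < y → Continuous fun x => U κ x y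
  cont_y : ∀ (κ : (ZMod M)ˣ) (x : ℝ), ContinuousOn (fun y => U κ x y) (Set.Ioi 0)
  bdd : ∀ (κ : (ZMod M)ˣ) (x y : ℝ), 0 < y → ‖U κ x y‖ ≤ C
  per : ∀ (κ : (ZMod M)ˣ) (x y : ℝ), 0 < y → U κ (x + M) y = U κ x y
  hecke : ∀ p : ℕ, p.Prime → ¬ p ∣ M → ∀ (κ : (ZMod M)ˣ) (x y : ℝ), 0 < y →
    ∑ j ∈ Finset.range p, U (κ * unitOf47 M p) ((x + j * M) / p) (y / p)
        + b p * U (κ * (unitOf47 M p)⁻¹) (p * x) (p * y)
      = ((Real.sqrt p : ℝ) : ℂ) * a p * U κ x y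

section

variable {M : ℕ} [NeZero M]

/-- The `χ`-isotypic sum `∑_κ χ(κ)⁻¹ U κ`. -/
def iso47 (χ : DirichletCharacter ℂ M) (U : (ZMod M)ˣ → ℝ → ℝ → ℂ) (x y : ℝ) : ℂ :=
  ∑ κ : (ZMod M)ˣ, χ ((κ⁻¹ : (ZMod M)ˣ) : ZMod M) * U κ x y

theorem sum_twist47 (χ : DirichletCharacter ℂ M) (V : (ZMod M)ˣ → ℂ) (u : (ZMod M)ˣ) :
    ∑ κ : (ZMod M)ˣ, χ ((κ⁻¹ : (ZMod M)ˣ) : ZMod M) * V (κ * u)
      = χ (u : ZMod M) * ∑ κ : (ZMod M)ˣ, χ ((κ⁻¹ : (ZMod M)ˣ) : ZMod M) * V κ := by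
  rw [Finset.mul_sum]
  refine Fintype.sum_equiv (Equiv.mulRight u) _ _ fun κ => ?_
  simp only [Equiv.coe_mulRight]
  have : ((κ⁻¹ : (ZMod M)ˣ) : ZMod M)
      = (u : ZMod M) * (((κ * u)⁻¹ : (ZMod M)ˣ) : ZMod M) := by
    rw [← Units.val_mul]
    congr 1
    group
  rw [this, map_mul]
  ring

theorem norm_iso47_le (χ : DirichletCharacter ℂ M) {U : (ZMod M)ˣ → ℝ → ℝ → ℂ} {C : ℝ}
    {x y : ℝ} (h : ∀ κ : (ZMod M)ˣ, ‖U κ x y‖ ≤ C) :
    ‖iso47 χ U x y‖ ≤ Fintype.card (ZMod M)ˣ * C := by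
  unfold iso47
  refine (norm_sum_le _ _).trans ?_
  have : ∀ κ ∈ (Finset.univ : Finset (ZMod M)ˣ),
      ‖χ ((κ⁻¹ : (ZMod M)ˣ) : ZMod M) * U κ x y‖ ≤ C := by
    intro κ _
    rw [norm_mul, DirichletCharacter.unit_norm_eq_one, one_mul]
    exact h κ
  refine (Finset.sum_le_sum this).trans ?_
  rw [Finset.sum_const, Finset.card_univ, nsmul_eq_mul]

/-- Orthogonality: the isotypic sums recover `U κ₀`. -/
theorem sum_iso47 (U : (ZMod M)ˣ → ℝ → ℝ → ℂ) (κ₀ : (ZMod M)ˣ) (x y : ℝ) :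
    ∑ χ : DirichletCharacter ℂ M, χ (κ₀ : ZMod M) * iso47 χ U x y
      = (M.totient : ℂ) * U κ₀ x y := by
  unfold iso47
  simp_rw [Finset.mul_sum]
  rw [Finset.sum_comm]
  have key : ∀ κ : (ZMod M)ˣ,
      ∑ χ : DirichletCharacter ℂ M,
          χ (κ₀ : ZMod M) * (χ ((κ⁻¹ : (ZMod M)ˣ) : ZMod M) * U κ x y)
        = if κ = κ₀ then (M.totient : ℂ) * U κ₀ x y else 0 := by
    intro κ
    have h1 := DirichletCharacter.sum_char_inv_mul_char_eq ℂ (n := M) (a := (κ : ZMod M))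
      κ.isUnit (κ₀ : ZMod M)
    have h2 : ∀ χ : DirichletCharacter ℂ M,
        χ (κ₀ : ZMod M) * (χ ((κ⁻¹ : (ZMod M)ˣ) : ZMod M) * U κ x y)
          = (χ (κ : ZMod M)⁻¹ * χ (κ₀ : ZMod M)) * U κ x y := by
      intro χ
      have : ((κ⁻¹ : (ZMod M)ˣ) : ZMod M) = (κ : ZMod M)⁻¹ := by
        rw [ZMod.inv_coe_unit]
      rw [this]
      ring
    simp_rw [h2]
    rw [← Finset.sum_mul, h1]
    by_cases hκ : κ = κ₀
    · subst hκ
      simp
    · have : (κ : ZMod M) ≠ (κ₀ : ZMod M) := fun h => hκ (Units.ext h)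
      rw [if_neg this, if_neg hκ, zero_mul]
  simp_rw [key]
  rw [Finset.sum_ite_eq' Finset.univ κ₀]
  simp

/-! ## The Hecke identity for the isotypic sums -/

variable {a b : ℕ → ℂ} {U : (ZMod M)ˣ → ℝ → ℝ → ℂ} {C : ℝ}

theorem HoroData47.iso_hecke (D : HoroData47 M a b U C) (χ : DirichletCharacter ℂ M)
    {p : ℕ} (hp : p.Prime) (hpM : ¬ p ∣ M) (x y : ℝ) (hy : 0 < y) :
    χ (p : ZMod M) * ∑ j ∈ Finset.range p, iso47 χ U ((x + j * M) / p) (y / p)
        + b p * (χ (p : ZMod M))⁻¹ * iso47 χ U (p * x) (p * y)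
      = ((Real.sqrt p : ℝ) : ℂ) * a p * iso47 χ U x y := by
  have hcop : Nat.Coprime p M := (Nat.Prime.coprime_iff_not_dvd hp).mpr hpM
  set u : (ZMod M)ˣ := unitOf47 M p with hu
  have hup : ((u : (ZMod M)ˣ) : ZMod M) = (p : ZMod M) := unitOf47_coe hcop
  have hχu : χ (p : ZMod M) = χ (u : ZMod M) := by rw [hup]
  have hχu' : (χ (p : ZMod M))⁻¹ = χ ((u⁻¹ : (ZMod M)ˣ) : ZMod M) := by
    rw [hχu]
    have h1 : χ (u : ZMod M) * χ ((u⁻¹ : (ZMod M)ˣ) : ZMod M) = 1 := by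
      rw [← map_mul, ← Units.val_mul, mul_inv_cancel, Units.val_one, map_one]
    exact inv_eq_of_mul_eq_one_right h1
  have e1 : ∀ j : ℕ, χ (u : ZMod M) * iso47 χ U ((x + j * M) / p) (y / p)
      = ∑ κ : (ZMod M)ˣ, χ ((κ⁻¹ : (ZMod M)ˣ) : ZMod M)
          * U (κ * u) ((x + j * M) / p) (y / p) := by
    intro j
    unfold iso47
    exact (sum_twist47 χ (fun κ => U κ ((x + j * M) / p) (y / p)) u).symm
  have e2 : χ ((u⁻¹ : (ZMod M)ˣ) : ZMod M) * iso47 χ U (p * x) (p * y)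
      = ∑ κ : (ZMod M)ˣ, χ ((κ⁻¹ : (ZMod M)ˣ) : ZMod M) * U (κ * u⁻¹) (p * x) (p * y) := by
    unfold iso47
    exact (sum_twist47 χ (fun κ => U κ (p * x) (p * y)) u⁻¹).symm
  rw [hχu', hχu, Finset.mul_sum, Finset.sum_congr rfl fun j _ => e1 j, mul_assoc, e2,
    Finset.sum_comm, Finset.mul_sum, ← Finset.sum_add_distrib]
  unfold iso47
  rw [Finset.mul_sum]
  refine Finset.sum_congr rfl fun κ _ => ?_
  have h := D.hecke p hp hpM κ x y hy
  rw [← hu] at h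
  rw [← Finset.mul_sum]
  calc χ ((κ⁻¹ : (ZMod M)ˣ) : ZMod M)
          * ∑ j ∈ Finset.range p, U (κ * u) ((x + j * M) / p) (y / p)
        + b p * (χ ((κ⁻¹ : (ZMod M)ˣ) : ZMod M) * U (κ * u⁻¹) (p * x) (p * y))
      = χ ((κ⁻¹ : (ZMod M)ˣ) : ZMod M)
          * (∑ j ∈ Finset.range p, U (κ * u) ((x + j * M) / p) (y / p)
            + b p * U (κ * u⁻¹) (p * x) (p * y)) := by ring
    _ = ((Real.sqrt p : ℝ) : ℂ) * a p * (χ ((κ⁻¹ : (ZMod M)ˣ) : ZMod M) * U κ x y) := by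
        rw [h]
        ring

theorem HoroData47.iso_cont_x (D : HoroData47 M a b U C) (χ : DirichletCharacter ℂ M)
    {y : ℝ} (hy : 0 < y) : Continuous fun x => iso47 χ U x y := by
  unfold iso47
  exact continuous_finsetSum _ fun κ _ => continuous_const.mul (D.cont_x κ y hy)

theorem HoroData47.iso_cont_y (D : HoroData47 M a b U C) (χ : DirichletCharacter ℂ M)
    (x : ℝ) : ContinuousOn (fun y => iso47 χ U x y) (Set.Ioi 0) := by
  unfold iso47
  exact continuousOn_finsetSum _ fun κ _ => continuousOn_const.mul (D.cont_y κ x)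

theorem HoroData47.iso_bdd (D : HoroData47 M a b U C) (χ : DirichletCharacter ℂ M)
    (x : ℝ) {y : ℝ} (hy : 0 < y) : ‖iso47 χ U x y‖ ≤ Fintype.card (ZMod M)ˣ * C :=
  norm_iso47_le χ fun κ => D.bdd κ x y hy

theorem HoroData47.iso_per (D : HoroData47 M a b U C) (χ : DirichletCharacter ℂ M)
    {y : ℝ} (hy : 0 < y) : Function.Periodic (fun x => iso47 χ U x y) (M : ℝ) := by
  intro x
  unfold iso47
  simp only
  exact Finset.sum_congr rfl fun κ _ => by rw [D.per κ x y hy]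

/-! ## The coefficient functions -/

/-- The Fourier coefficients of the isotypic sum on the horocycle of height `y`, of frequency
`ε n / M` (`ε = ± 1`). -/
def horoCoef47 (χ : DirichletCharacter ℂ M) (U : (ZMod M)ˣ → ℝ → ℝ → ℂ) (ε : ℤ) (n : ℕ)
    (y : ℝ) : ℂ :=
  coef47 (M : ℝ) (fun x => iso47 χ U x y) (ε * n)

theorem HoroData47.star (D : HoroData47 M a b U C) (χ : DirichletCharacter ℂ M) (ε : ℤ)
    {p : ℕ} (hp : p.Prime) (hpM : ¬ p ∣ M) (n : ℕ) (y : ℝ) (hy : 0 < y)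
    (hε : ε = 1 ∨ ε = -1) :
    ((Real.sqrt p : ℝ) : ℂ) * a p * horoCoef47 χ U ε n y
      = χ (p : ZMod M) * (p : ℂ) * horoCoef47 χ U ε (p * n) (y / p)
        + (if p ∣ n then b p * (χ (p : ZMod M))⁻¹ * horoCoef47 χ U ε (n / p) (p * y) else 0) := by
  have hM : (0 : ℝ) < M := Nat.cast_pos.mpr (Nat.pos_of_ne_zero (NeZero.ne M))
  have hp0 : (0 : ℝ) < p := Nat.cast_pos.mpr hp.pos
  have hyp : 0 < y / p := div_pos hy hp0
  have hpy : 0 < (p : ℝ) * y := mul_pos hp0 hy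
  -- the Hecke identity as an identity of functions of `x`
  have hfun : (fun x => ((Real.sqrt p : ℝ) : ℂ) * a p * iso47 χ U x y)
      = fun x => χ (p : ZMod M) * ∑ j ∈ Finset.range p, iso47 χ U ((x + j * M) / p) (y / p)
          + (b p * (χ (p : ZMod M))⁻¹) * iso47 χ U (p * x) (p * y) := by
    funext x
    exact (D.iso_hecke χ hp hpM x y hy).symm
  have hc1 : Continuous fun x => ∑ j ∈ Finset.range p, iso47 χ U ((x + j * M) / p) (y / p) :=
    continuous_finsetSum _ fun j _ => (D.iso_cont_x χ hyp).comp (by fun_prop)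
  have hc2 : Continuous fun x => iso47 χ U (p * x) (p * y) :=
    (D.iso_cont_x χ hpy).comp (by fun_prop)
  have hA : Continuous fun x =>
      χ (p : ZMod M) * ∑ j ∈ Finset.range p, iso47 χ U ((x + j * M) / p) (y / p) :=
    continuous_const.mul hc1
  have hB : Continuous fun x => (b p * (χ (p : ZMod M))⁻¹) * iso47 χ U (p * x) (p * y) :=
    continuous_const.mul hc2
  unfold horoCoef47
  rw [← coef47_const_mul, hfun, coef47_add hA hB,
    coef47_const_mul, coef47_const_mul,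
    coef47_sumShift hM (D.iso_cont_x χ hyp) hp.pos]
  have eidx : (p : ℤ) * (ε * n) = ε * ((p * n : ℕ) : ℤ) := by
    push_cast
    ring
  rw [eidx]
  congr 1
  · ring
  · by_cases hpn : p ∣ n
    · rw [if_pos hpn]
      obtain ⟨n', rfl⟩ := hpn
      have e1 : ε * ((p * n' : ℕ) : ℤ) = (p : ℤ) * (ε * n') := by
        push_cast
        ring
      rw [e1, coef47_dilate_mul (D.iso_cont_x χ hpy) (D.iso_per χ hpy) hp.pos,
        Nat.mul_div_cancel_left _ hp.pos]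
    · rw [if_neg hpn]
      have hnd : ¬ (p : ℤ) ∣ ε * n := by
        intro h
        apply hpn
        have h2 : (p : ℤ) ∣ (n : ℤ) := by
          rcases hε with h1 | h1
          · rw [h1, one_mul] at h
            exact h
          · rw [h1, neg_one_mul] at h
            exact (dvd_neg.mp h)
        exact Int.natCast_dvd_natCast.mp h2
      rw [coef47_dilate_of_not_dvd hM (D.iso_per χ hpy) hp.pos hnd, mul_zero]

theorem HoroData47.bessel (D : HoroData47 M a b U C) (χ : DirichletCharacter ℂ M) (ε : ℤ)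
    (hε : ε = 1 ∨ ε = -1) (y : ℝ) (hy : 0 < y) (F : Finset ℕ) :
    ∑ n ∈ F, ‖horoCoef47 χ U ε n y‖ ^ 2 ≤ (Fintype.card (ZMod M)ˣ * C) ^ 2 := by
  have hM : (0 : ℝ) < M := Nat.cast_pos.mpr (Nat.pos_of_ne_zero (NeZero.ne M))
  have hε0 : ε ≠ 0 := by
    rcases hε with h | h <;> rw [h] <;> norm_num
  have hinj : Set.InjOn (fun n : ℕ => ε * (n : ℤ)) (F : Set ℕ) := by
    intro m _ n _ h
    simp only at h
    exact_mod_cast mul_left_cancel₀ hε0 h
  have h := bessel47 hM (D.iso_cont_x χ hy) (fun x => D.iso_bdd χ x hy)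
    (F.image fun n : ℕ => ε * (n : ℤ))
  rw [Finset.sum_image hinj] at h
  exact h

theorem HoroData47.cont (D : HoroData47 M a b U C) (χ : DirichletCharacter ℂ M) (ε : ℤ)
    (n : ℕ) : ContinuousOn (horoCoef47 χ U ε n) (Set.Ioi 0) := by
  unfold horoCoef47
  exact continuousOn_coef47 (Nat.cast_nonneg M) (F := fun y x => iso47 χ U x y)
    (fun y hy => D.iso_cont_x χ hy) (fun x => D.iso_cont_y χ x)
    (fun y hy x => D.iso_bdd χ x hy) _

/-- The Dirichlet character as a function on `ℕ`. -/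
def chiNat47 (χ : DirichletCharacter ℂ M) (n : ℕ) : ℂ := χ (n : ZMod M)

/-- The `CoeffData` of helper51's MS1 for the isotypic sum of `χ` and the sign `ε`. -/
theorem HoroData47.coeffData (D : HoroData47 M a b U C) (χ : DirichletCharacter ℂ M) (ε : ℤ)
    (hε : ε = 1 ∨ ε = -1) :
    CoeffData M a b (chiNat47 χ) (horoCoef47 χ U ε) (Fintype.card (ZMod M)ˣ * C) where
  a_one := D.a_one
  chi_one := by
    unfold chiNat47
    rw [Nat.cast_one, map_one]
  chi_mul := fun m n => by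
    unfold chiNat47
    rw [Nat.cast_mul, map_mul]
  chi_norm := fun n _ hn => by
    unfold chiNat47
    rw [← ZMod.coe_unitOfCoprime n hn]
    exact DirichletCharacter.unit_norm_eq_one χ _
  hecke := D.hecke_a
  cont := fun n => D.cont χ ε n
  bessel := fun y hy F => D.bessel χ ε hε y hy F
  star := fun p hp hpM n _ y hy => D.star χ ε hp hpM n y hy hε

/-! ## Non-vanishing -/

theorem HoroData47.exists_ne (D : HoroData47 M a b U C)
    (hne : ∃ (κ : (ZMod M)ˣ) (y x x' : ℝ), 0 < y ∧ U κ x y ≠ U κ x' y) :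
    ∃ (χ : DirichletCharacter ℂ M) (ε : ℤ), (ε = 1 ∨ ε = -1) ∧
      ∃ k : ℕ, 0 < k ∧ ∃ y : ℝ, 0 < y ∧ horoCoef47 χ U ε k y ≠ 0 := by
  have hM : (0 : ℝ) < M := Nat.cast_pos.mpr (Nat.pos_of_ne_zero (NeZero.ne M))
  obtain ⟨κ₀, y, x, x', hy, hxx'⟩ := hne
  -- some isotypic sum is not constant
  have h1 : ∃ χ : DirichletCharacter ℂ M, iso47 χ U x y ≠ iso47 χ U x' y := by
    by_contra hcon
    push Not at hcon
    apply hxx'
    have e1 := sum_iso47 U κ₀ x y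
    have e2 := sum_iso47 U κ₀ x' y
    have e3 : ∑ χ : DirichletCharacter ℂ M, χ (κ₀ : ZMod M) * iso47 χ U x y
        = ∑ χ : DirichletCharacter ℂ M, χ (κ₀ : ZMod M) * iso47 χ U x' y :=
      Finset.sum_congr rfl fun χ _ => by rw [hcon χ]
    rw [e1, e2] at e3
    have hφ : (M.totient : ℂ) ≠ 0 :=
      Nat.cast_ne_zero.mpr (Nat.totient_pos.mpr (Nat.pos_of_ne_zero (NeZero.ne M))).ne'
    exact mul_left_cancel₀ hφ e3
  obtain ⟨χ, hχ⟩ := h1
  obtain ⟨n, hn0, hn⟩ := exists_coef47_ne_zero hM (D.iso_cont_x χ hy) (D.iso_per χ hy)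
    (x := x) (x' := x') hχ
  rcases lt_or_gt_of_ne hn0 with hneg | hpos
  · refine ⟨χ, -1, Or.inr rfl, (-n).toNat, ?_, y, hy, ?_⟩
    · omega
    · unfold horoCoef47
      have : (-1 : ℤ) * (((-n).toNat : ℕ) : ℤ) = n := by
        rw [Int.toNat_of_nonneg (by omega)]
        ring
      rw [this]
      exact hn
  · refine ⟨χ, 1, Or.inl rfl, n.toNat, ?_, y, hy, ?_⟩
    · omega
    · unfold horoCoef47
      have : (1 : ℤ) * ((n.toNat : ℕ) : ℤ) = n := by
        rw [Int.toNat_of_nonneg (by omega)]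
        ring
      rw [this]
      exact hn

/-- **MS4a.**  The classical horocycle data give the `CoeffData` of MS1 with a non-vanishing
coefficient function. -/
theorem HoroData47.exists_coeffData (D : HoroData47 M a b U C)
    (hne : ∃ (κ : (ZMod M)ˣ) (y x x' : ℝ), 0 < y ∧ U κ x y ≠ U κ x' y) :
    ∃ (χ : ℕ → ℂ) (c : ℕ → ℝ → ℂ) (M₁ : ℝ), CoeffData M a b χ c M₁ ∧
      ∃ k : ℕ, 0 < k ∧ ∃ y : ℝ, 0 < y ∧ c k y ≠ 0 := by
  obtain ⟨χ, ε, hε, hk⟩ := D.exists_ne hne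
  exact ⟨chiNat47 χ, horoCoef47 χ U ε, _, D.coeffData χ ε hε, hk⟩

/-- **MS4a + MS1**: the mean square bound for the depleted Hecke sequence. -/
theorem HoroData47.msBound (D : HoroData47 M a b U C)
    (hne : ∃ (κ : (ZMod M)ˣ) (y x x' : ℝ), 0 < y ∧ U κ x y ≠ U κ x' y) :
    ∃ C' : ℝ, 0 ≤ C' ∧ ∀ x : ℕ, 1 ≤ x →
      ∑ n ∈ Finset.range (x + 1), ‖depleted M a n‖ ^ 2 ≤ C' * (x : ℝ) := by
  obtain ⟨χ, c, M₁, hD, hk⟩ := D.exists_coeffData hne
  exact hD.msBound hk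

end

end Fermat.Agent.LT.T8.H47
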