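import Fermat.Agent.LT.T8.Spec
import Fermat.Agent.LT.T8.H47.Horo
import Fermat.Agent.LT.T8.H47.HeckeSeq

/-!
# Row LT, tower T8: the sub-leaves `HeckeSeqC` and `HoroCoeffC` of the Spec of helper19, PROVED
(helper47, OFF-MAIN)

Against `Fermat/Agent/LT/T8/Spec.lean` of origin/helper19@6d7f2471b (sha256 f64dc2b9506eecd5),
VERBATIM:

* `heckeSeqC47 : T8.HeckeSeqC`        (HSEQ, from `exists_heckeSeq47`);
* `horoCoeffC47 : T8.HoroCoeffC`      (MS4a, from `HoroData47.exists_coeffData`).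

So `T8.top` reads `CentralEven556 → HoroC → WT.PAR556` (`par556_of_adelic47`): tower T8 is open in
its two ADELIC sub-leaves only.
-/

set_option autoImplicit false

open AutomorphicForm IsDedekindDomain NumberField FLT.ExplicitLift

namespace Fermat.Agent.LT.T8.H47

open Fermat.Agent.LT.T8 Fermat.Agent.LT.H51

/-- **HSEQ**, the frozen Prop of the Spec. -/
theorem heckeSeqC47 : HeckeSeqC := by
  intro A B
  obtain ⟨a, -, h1, -, -, hrel⟩ := exists_heckeSeq47 A B
  exact ⟨a, h1, hrel⟩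

theorem unitCls_eq_unitOf47 (M p : ℕ) : unitCls M p = unitOf47 M p := by
  by_cases h : Nat.Coprime p M
  · apply Units.ext
    rw [unitCls_coe h, unitOf47_coe h]
  · unfold unitCls unitOf47
    rw [dif_neg h]

/-- The horocycle data of the Spec are the horocycle data of `Horo.lean`. -/
theorem horoData47_of_spec {M : ℕ} {A B : ℕ → ℂ} {U : (ZMod M)ˣ → ℝ → ℝ → ℂ} {C : ℝ}
    {a : ℕ → ℂ} (D : HoroData M A B U C) (ha1 : a 1 = 1)
    (hrel : ∀ p : ℕ, p.Prime → ¬ p ∣ M → ∀ n : ℕ,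
      a (p * n) + B p * (if p ∣ n then a (n / p) else 0) = A p * a n) :
    HoroData47 M a B U C := by
  have hap : ∀ p : ℕ, p.Prime → ¬ p ∣ M → a p = A p := by
    intro p hp hpM
    have h := hrel p hp hpM 1
    have hnd : ¬ p ∣ 1 := fun h1 => hp.one_lt.ne' (Nat.dvd_one.mp h1)
    rw [mul_one, if_neg hnd, mul_zero, add_zero, ha1, mul_one] at h
    exact h
  refine ⟨ha1, ?_, D.cont_x, D.cont_y, D.bdd, D.periodic, ?_⟩
  · intro p hp hpM n
    rw [hap p hp hpM]
    exact hrel p hp hpM n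
  · intro p hp hpM κ x y hy
    rw [hap p hp hpM, ← unitCls_eq_unitOf47]
    exact D.hecke p hp hpM κ x y hy

/-- **MS4a**, the frozen Prop of the Spec. -/
theorem horoCoeffC47 : HoroCoeffC := by
  intro M A B U C a D ha1 hrel hnc
  have : NeZero M := ⟨D.M_pos.ne'⟩
  obtain ⟨κ, x, x', y, hy, hne⟩ := hnc
  exact (horoData47_of_spec D ha1 hrel).exists_coeffData ⟨κ, y, x, x', hy, hne⟩

/-- Tower T8 from its two adelic sub-leaves. -/
theorem par556_of_adelic47 (hA : Fermat.Agent.LT.H19.CentralEven556) (hH : HoroC) :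
    Fermat.Agent.LT.H556.WT.PAR556 :=
  top hA heckeSeqC47 hH horoCoeffC47

end Fermat.Agent.LT.T8.H47
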